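/-
S28 (Igusa), work item W3: formal Laurent-series side.
Generic substitution `q ↦ c * t ^ k` on Laurent series over a commutative ring.
Owner: helper10.  Prefix `fs_`.
-/
import Mathlib
import Fermat.Prelude.Def_ModularCurve_X0
import Fermat.Prelude.Def_ModularCurve_LaurentCoeff

set_option autoImplicit false

noncomputable section

open HahnSeries ModularCurve

namespace Fermat.Agent.S28

variable {R S : Type*} [CommRing R] [CommRing S]

/-! ### The twist `t ↦ c t` -/

/-- The underlying function of the twist `t ↦ c t`: the `n`-th coefficient is multiplied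
by `c ^ n` (`n : ℤ`, `c` a unit). -/
def fs_twistFun (c : Rˣ) (f : LaurentSeries R) : LaurentSeries R where
  coeff n := ((c ^ n : Rˣ) : R) * f.coeff n
  isPWO_support' := by
    refine f.isPWO_support.mono ?_
    intro n hn
    simp only [Function.mem_support, ne_eq] at hn
    simp only [HahnSeries.mem_support, ne_eq]
    intro h
    exact hn (by rw [h, mul_zero])

@[simp]
theorem fs_twistFun_coeff (c : Rˣ) (f : LaurentSeries R) (n : ℤ) :
    (fs_twistFun c f).coeff n = ((c ^ n : Rˣ) : R) * f.coeff n := rfl

theorem fs_twistFun_support (c : Rˣ) (f : LaurentSeries R) :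
    (fs_twistFun c f).support = f.support := by
  ext n
  simp only [HahnSeries.mem_support, fs_twistFun_coeff, ne_eq]
  rw [Units.mul_right_eq_zero]

/-- The twist `t ↦ c t` as a ring homomorphism of Laurent series. -/
def fs_twist (c : Rˣ) : LaurentSeries R →+* LaurentSeries R where
  toFun := fs_twistFun c
  map_zero' := by
    ext n
    simp
  map_one' := by
    ext n
    simp only [fs_twistFun_coeff, HahnSeries.coeff_one]
    split_ifs with h
    · subst h
      simp
    · simp
  map_add' x y := by
    ext n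
    simp [mul_add]
  map_mul' x y := by
    ext n
    rw [fs_twistFun_coeff, HahnSeries.coeff_mul, HahnSeries.coeff_mul, Finset.mul_sum]
    have hx : (fs_twistFun c x).support = x.support := fs_twistFun_support c x
    have hy : (fs_twistFun c y).support = y.support := fs_twistFun_support c y
    refine Finset.sum_congr ?_ fun ij hij => ?_
    · ext ij
      rw [Finset.mem_antidiagonal, Finset.mem_antidiagonal, hx, hy]
    · have hsum : ij.1 + ij.2 = n := (Finset.mem_antidiagonal.mp hij).2.2
      simp only [fs_twistFun_coeff]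
      rw [← hsum, zpow_add, Units.val_mul]
      ring

@[simp]
theorem fs_twist_coeff (c : Rˣ) (f : LaurentSeries R) (n : ℤ) :
    (fs_twist c f).coeff n = ((c ^ n : Rˣ) : R) * f.coeff n := rfl

theorem fs_twist_support (c : Rˣ) (f : LaurentSeries R) :
    (fs_twist c f).support = f.support := fs_twistFun_support c f

@[simp]
theorem fs_twist_one (f : LaurentSeries R) : fs_twist (1 : Rˣ) f = f := by
  ext n
  simp

theorem fs_twist_mul (c c' : Rˣ) (f : LaurentSeries R) :
    fs_twist (c * c') f = fs_twist c (fs_twist c' f) := by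
  ext n
  simp only [fs_twist_coeff, mul_zpow, Units.val_mul]
  ring

theorem fs_twist_inv_twist (c : Rˣ) (f : LaurentSeries R) :
    fs_twist c⁻¹ (fs_twist c f) = f := by
  rw [← fs_twist_mul, inv_mul_cancel, fs_twist_one]

theorem fs_twist_twist_inv (c : Rˣ) (f : LaurentSeries R) :
    fs_twist c (fs_twist c⁻¹ f) = f := by
  rw [← fs_twist_mul, mul_inv_cancel, fs_twist_one]

theorem fs_twist_injective (c : Rˣ) : Function.Injective (fs_twist c) :=
  Function.LeftInverse.injective (fs_twist_inv_twist c)

theorem fs_twist_surjective (c : Rˣ) : Function.Surjective (fs_twist c) :=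
  Function.RightInverse.surjective (fs_twist_twist_inv c)

@[simp]
theorem fs_twist_single (c : Rˣ) (n : ℤ) (r : R) :
    fs_twist c (HahnSeries.single n r) = HahnSeries.single n (((c ^ n : Rˣ) : R) * r) := by
  ext m
  rw [fs_twist_coeff]
  rcases eq_or_ne m n with rfl | hm
  · simp [HahnSeries.coeff_single_same]
  · simp [HahnSeries.coeff_single_of_ne hm]

@[simp]
theorem fs_twist_C (c : Rˣ) (r : R) :
    fs_twist c (HahnSeries.C r) = HahnSeries.C r := by
  rw [HahnSeries.C_apply, fs_twist_single, zpow_zero, Units.val_one, one_mul]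

theorem fs_twist_order (c : Rˣ) (f : LaurentSeries R) :
    (fs_twist c f).order = f.order := by
  by_cases hf : f = 0
  · subst hf
    simp
  · have hf' : fs_twist c f ≠ 0 := fun h => hf (fs_twist_injective c (by rw [h, map_zero]))
    rw [HahnSeries.order_of_ne hf', HahnSeries.order_of_ne hf]
    congr 1
    exact fs_twist_support c f

theorem fs_coeffMap_twist (φ : R →+* S) (c : Rˣ) (f : LaurentSeries R) :
    coeffMap φ (fs_twist c f) = fs_twist (Units.map (φ : R →* S) c) (coeffMap φ f) := by
  ext n
  simp only [coeffMap_coeff, fs_twist_coeff, map_mul]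
  congr 1
  rw [← map_zpow]
  rfl

/-! ### Orders -/

theorem fs_order_eq_of {g : LaurentSeries R} {m : ℤ} (h1 : g.coeff m ≠ 0)
    (h2 : ∀ n < m, g.coeff n = 0) : g.order = m := by
  have hg : g ≠ 0 := fun h => h1 (by rw [h, HahnSeries.coeff_zero])
  refine le_antisymm (HahnSeries.order_le_of_coeff_ne_zero h1) ?_
  by_contra hlt
  rw [not_le] at hlt
  exact hg (HahnSeries.coeff_order_eq_zero.mp (h2 _ hlt))

theorem fs_coeff_eq_zero_of_lt_order {g : LaurentSeries R} {n : ℤ} (h : n < g.order) :
    g.coeff n = 0 := HahnSeries.coeff_eq_zero_of_lt_order h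

/-! ### The substitution `q ↦ c t ^ k` -/

/-- The substitution `q ↦ c * t ^ k` (`c` a unit, `k ≥ 1`) on Laurent series:
`f(q) ↦ f(c t^k)`. -/
def fs_subst (c : Rˣ) (k : ℕ) [NeZero k] : LaurentSeries R →+* LaurentSeries R :=
  (qExpand R k).comp (fs_twist c)

variable (c : Rˣ) (k : ℕ) [NeZero k]

theorem fs_subst_apply (f : LaurentSeries R) :
    fs_subst c k f = qExpand R k (fs_twist c f) := rfl

@[simp]
theorem fs_subst_coeff_mul (f : LaurentSeries R) (n : ℤ) :
    (fs_subst c k f).coeff ((k : ℤ) * n) = ((c ^ n : Rˣ) : R) * f.coeff n := by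
  rw [fs_subst_apply, qExpand_coeff_mul, fs_twist_coeff]

theorem fs_subst_coeff_of_not_dvd (f : LaurentSeries R) {n : ℤ} (h : ¬ (k : ℤ) ∣ n) :
    (fs_subst c k f).coeff n = 0 := by
  rw [fs_subst_apply]
  exact qExpand_coeff_of_not_dvd k _ h

theorem fs_subst_injective : Function.Injective (fs_subst c k : LaurentSeries R → _) :=
  (qExpand_injective (R := R) k).comp (fs_twist_injective c)

@[simp]
theorem fs_subst_single (n : ℤ) (r : R) :
    fs_subst c k (HahnSeries.single n r) =
      HahnSeries.single ((k : ℤ) * n) (((c ^ n : Rˣ) : R) * r) := by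
  rw [fs_subst_apply, fs_twist_single, qExpand_single]

@[simp]
theorem fs_subst_C (r : R) : fs_subst c k (HahnSeries.C r) = HahnSeries.C r := by
  rw [fs_subst_apply, fs_twist_C, qExpand_C]

theorem fs_subst_one_eq_qExpand (f : LaurentSeries R) :
    fs_subst (1 : Rˣ) k f = qExpand R k f := by
  rw [fs_subst_apply, fs_twist_one]

theorem fs_subst_one_right (f : LaurentSeries R) :
    fs_subst c 1 f = fs_twist c f := by
  rw [fs_subst_apply, qExpand_one_apply]

theorem fs_qExpand_twist (f : LaurentSeries R) :
    qExpand R k (fs_twist (c ^ k) f) = fs_twist c (qExpand R k f) := by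
  ext n
  by_cases h : (k : ℤ) ∣ n
  · obtain ⟨m, rfl⟩ := h
    rw [qExpand_coeff_mul, fs_twist_coeff, fs_twist_coeff, qExpand_coeff_mul]
    congr 2
    rw [zpow_mul, zpow_natCast]
  · rw [qExpand_coeff_of_not_dvd k _ h, fs_twist_coeff, qExpand_coeff_of_not_dvd k _ h,
      mul_zero]

theorem fs_subst_subst (c' : Rˣ) (k' : ℕ) [NeZero k'] (f : LaurentSeries R) :
    fs_subst c k (fs_subst c' k' f) = fs_subst (c' * c ^ k') (k * k') f := by
  rw [fs_subst_apply, fs_subst_apply, fs_subst_apply, ← fs_qExpand_twist, qExpand_qExpand,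
    ← fs_twist_mul, mul_comm c' (c ^ k')]

theorem fs_twist_subst (e : Rˣ) (f : LaurentSeries R) :
    fs_twist e (fs_subst c k f) = fs_subst (c * e ^ k) k f := by
  rw [fs_subst_apply, fs_subst_apply, ← fs_qExpand_twist, ← fs_twist_mul, mul_comm c (e ^ k)]

theorem fs_coeffMap_qExpand (φ : R →+* S) (f : LaurentSeries R) :
    coeffMap φ (qExpand R k f) = qExpand S k (coeffMap φ f) := by
  ext n
  by_cases h : (k : ℤ) ∣ n
  · obtain ⟨m, rfl⟩ := h
    rw [coeffMap_coeff, qExpand_coeff_mul, qExpand_coeff_mul, coeffMap_coeff]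
  · rw [coeffMap_coeff, qExpand_coeff_of_not_dvd k _ h, qExpand_coeff_of_not_dvd k _ h,
      map_zero]

theorem fs_coeffMap_subst (φ : R →+* S) (f : LaurentSeries R) :
    coeffMap φ (fs_subst c k f) = fs_subst (Units.map (φ : R →* S) c) k (coeffMap φ f) := by
  rw [fs_subst_apply, fs_subst_apply, fs_coeffMap_qExpand, fs_coeffMap_twist]

theorem fs_qExpand_order (f : LaurentSeries R) :
    (qExpand R k f).order = (k : ℤ) * f.order := by
  by_cases hf : f = 0
  · subst hf
    simp
  · have hkpos : (0 : ℤ) < k := by exact_mod_cast Nat.pos_of_ne_zero (NeZero.ne k)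
    refine fs_order_eq_of ?_ ?_
    · rw [qExpand_coeff_mul]
      exact fun h => hf (HahnSeries.coeff_order_eq_zero.mp h)
    · intro n hn
      by_cases h : (k : ℤ) ∣ n
      · obtain ⟨m, rfl⟩ := h
        rw [qExpand_coeff_mul]
        exact HahnSeries.coeff_eq_zero_of_lt_order (lt_of_mul_lt_mul_left hn hkpos.le)
      · exact qExpand_coeff_of_not_dvd k _ h

theorem fs_subst_order (f : LaurentSeries R) :
    (fs_subst c k f).order = (k : ℤ) * f.order := by
  rw [fs_subst_apply, fs_qExpand_order, fs_twist_order]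

/-- The leading coefficient of `f(c t^k)`. -/
theorem fs_subst_coeff_order (f : LaurentSeries R) :
    (fs_subst c k f).coeff ((fs_subst c k f).order) =
      ((c ^ f.order : Rˣ) : R) * f.coeff f.order := by
  rw [fs_subst_order, fs_subst_coeff_mul]

theorem fs_subst_coeff_of_lt (f : LaurentSeries R) {n : ℤ} (h : n < (k : ℤ) * f.order) :
    (fs_subst c k f).coeff n = 0 := by
  rw [← fs_subst_order c k f] at h
  exact HahnSeries.coeff_eq_zero_of_lt_order h

/-! ### Invariance under the twist by a primitive root of unity -/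

/-- A Laurent series over a domain that is invariant under `t ↦ ζ t`, `ζ` a primitive `N`-th
root of unity, is a series in `t ^ N`. -/
theorem fs_exists_qExpand_of_twist_eq [IsDomain R] {N : ℕ} [NeZero N] {ζ : Rˣ}
    (hζ : IsPrimitiveRoot ζ N) {f : LaurentSeries R} (hf : fs_twist ζ f = f) :
    ∃ g : LaurentSeries R, qExpand R N g = f := by
  have hNpos : (0 : ℤ) < N := by exact_mod_cast Nat.pos_of_ne_zero (NeZero.ne N)
  have hzero : ∀ n : ℤ, ¬ (N : ℤ) ∣ n → f.coeff n = 0 := by
    intro n hn
    have h1 : ((ζ ^ n : Rˣ) : R) * f.coeff n = f.coeff n := by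
      rw [← fs_twist_coeff, hf]
    have h2 : (((ζ ^ n : Rˣ) : R) - 1) * f.coeff n = 0 := by
      rw [sub_mul, h1, one_mul, sub_self]
    rcases mul_eq_zero.mp h2 with h3 | h3
    · exfalso
      apply hn
      rw [← hζ.zpow_eq_one_iff_dvd]
      exact Units.ext (by rw [Units.val_one]; exact sub_eq_zero.mp h3)
    · exact h3
  refine ⟨⟨fun n => f.coeff ((N : ℤ) * n), ?_⟩, ?_⟩
  · -- support is bounded below
    apply Set.IsWF.isPWO
    by_cases hf0 : f = 0
    · subst hf0
      simp [Function.support]
    · refine Set.IsWF.mono (t := Set.Ici (min f.order 0)) ?_ ?_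
      · exact BddBelow.wellFoundedOn_lt (s := Set.Ici (min f.order 0))
          ⟨min f.order 0, fun _ h => h⟩
      · intro n hn
        simp only [Function.mem_support, ne_eq] at hn
        simp only [Set.mem_Ici]
        by_contra hlt
        rw [not_le, lt_min_iff] at hlt
        apply hn
        apply HahnSeries.coeff_eq_zero_of_lt_order
        have h1 : (N : ℤ) * n ≤ n := by nlinarith [hlt.2]
        exact lt_of_le_of_lt h1 hlt.1
  · ext n
    by_cases h : (N : ℤ) ∣ n
    · obtain ⟨m, rfl⟩ := h
      rw [qExpand_coeff_mul]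
    · rw [qExpand_coeff_of_not_dvd N _ h, hzero n h]

end Fermat.Agent.S28
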