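/-
S28 (Igusa), work item W3: formal Laurent-series side, part 2.
The formal series `jq(c t^k)`, the formal discriminant and the modular-unit quotients
`e * Δ(c t^k) / Δ(t^N)`; orders, leading coefficients, naturality in the coefficient ring,
distinctness of the conjugates.
Owner: helper10.  Prefix `fs_`.
-/
import Mathlib
import Fermat.Prelude.Def_ModularCurve_JqCoeff
import Fermat.Agent.S28.Formal.Subst

set_option autoImplicit false

noncomputable section

open HahnSeries ModularCurve

namespace Fermat.Agent.S28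

variable {R S : Type*} [CommRing R] [CommRing S]

/-! ### Shifted power series `t^m * P(t)` -/

/-- `t ^ m * P(t)` for a power series `P` and `m : ℤ`. -/
def fs_shift (m : ℤ) (P : PowerSeries R) : LaurentSeries R :=
  HahnSeries.single m 1 * HahnSeries.ofPowerSeries ℤ R P

theorem fs_shift_coeff_add (m : ℤ) (P : PowerSeries R) (n : ℕ) :
    (fs_shift m P).coeff ((n : ℤ) + m) = PowerSeries.coeff n P := by
  rw [fs_shift, HahnSeries.coeff_single_mul_add, one_mul, HahnSeries.ofPowerSeries_apply_coeff]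

theorem fs_shift_coeff_of_lt (m : ℤ) (P : PowerSeries R) {n : ℤ} (h : n < m) :
    (fs_shift m P).coeff n = 0 := by
  have : n = (n - m) + m := by ring
  rw [this, fs_shift, HahnSeries.coeff_single_mul_add, one_mul,
    ofPowerSeries_coeff_of_neg _ (by linarith)]

theorem fs_shift_coeff_self (m : ℤ) (P : PowerSeries R) :
    (fs_shift m P).coeff m = PowerSeries.constantCoeff P := by
  have := fs_shift_coeff_add m P 0
  rwa [Nat.cast_zero, zero_add, PowerSeries.coeff_zero_eq_constantCoeff] at this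

theorem fs_shift_order (m : ℤ) (P : PowerSeries R) (h : PowerSeries.constantCoeff P ≠ 0) :
    (fs_shift m P).order = m :=
  fs_order_eq_of (by rwa [fs_shift_coeff_self]) fun _ hn => fs_shift_coeff_of_lt m P hn

theorem fs_shift_leadingCoeff (m : ℤ) (P : PowerSeries R)
    (h : PowerSeries.constantCoeff P ≠ 0) :
    (fs_shift m P).leadingCoeff = PowerSeries.constantCoeff P := by
  rw [HahnSeries.leadingCoeff_eq, fs_shift_order m P h, fs_shift_coeff_self]

theorem fs_shift_mul (m m' : ℤ) (P P' : PowerSeries R) :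
    fs_shift m P * fs_shift m' P' = fs_shift (m + m') (P * P') := by
  rw [fs_shift, fs_shift, fs_shift, map_mul, mul_mul_mul_comm, HahnSeries.single_mul_single,
    one_mul]

theorem fs_shift_zero_one : fs_shift (0 : ℤ) (1 : PowerSeries R) = 1 := by
  rw [fs_shift, map_one (HahnSeries.ofPowerSeries ℤ R), mul_one]
  rfl

theorem fs_coeffMap_ofPowerSeries (φ : R →+* S) (P : PowerSeries R) :
    coeffMap φ (HahnSeries.ofPowerSeries ℤ R P) =
      HahnSeries.ofPowerSeries ℤ S (P.map φ) := by
  ext k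
  rw [coeffMap_coeff]
  rcases le_or_gt 0 k with hk | hk
  · lift k to ℕ using hk
    rw [HahnSeries.ofPowerSeries_apply_coeff, HahnSeries.ofPowerSeries_apply_coeff,
      PowerSeries.coeff_map]
  · rw [ofPowerSeries_coeff_of_neg _ hk, ofPowerSeries_coeff_of_neg _ hk, map_zero]

theorem fs_coeffMap_shift (φ : R →+* S) (m : ℤ) (P : PowerSeries R) :
    coeffMap φ (fs_shift m P) = fs_shift m (P.map φ) := by
  rw [fs_shift, fs_shift, map_mul, coeffMap_single, map_one, fs_coeffMap_ofPowerSeries]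

theorem fs_map_map_intCast (φ : R →+* S) (P : PowerSeries ℤ) :
    (P.map (Int.castRingHom R)).map φ = P.map (Int.castRingHom S) := by
  ext n
  simp

/-- Substituting `c t^k` into `t^m P(t)`: the order. -/
theorem fs_subst_shift_order (c : Rˣ) (k : ℕ) [NeZero k] (m : ℤ) (P : PowerSeries R)
    (h : PowerSeries.constantCoeff P ≠ 0) :
    (fs_subst c k (fs_shift m P)).order = (k : ℤ) * m := by
  rw [fs_subst_order, fs_shift_order m P h]

/-- Substituting `c t^k` into `t^m P(t)`: the leading coefficient. -/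
theorem fs_subst_shift_leadingCoeff (c : Rˣ) (k : ℕ) [NeZero k] (m : ℤ) (P : PowerSeries R)
    (h : PowerSeries.constantCoeff P ≠ 0) :
    (fs_subst c k (fs_shift m P)).leadingCoeff =
      ((c ^ m : Rˣ) : R) * PowerSeries.constantCoeff P := by
  rw [HahnSeries.leadingCoeff_eq, fs_subst_coeff_order, fs_shift_order m P h,
    fs_shift_coeff_self]

/-! ### The conjugates `jq(c t^k)` -/

theorem fs_jqModC_eq_shift (R : Type*) [CommRing R] :
    jqModC R = fs_shift (-1) (jNum.map (Int.castRingHom R)) := rfl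

theorem fs_constantCoeff_jNum_map (R : Type*) [CommRing R] :
    PowerSeries.constantCoeff (jNum.map (Int.castRingHom R)) = 1 := by
  rw [← PowerSeries.coeff_zero_eq_constantCoeff_apply, PowerSeries.coeff_map,
    PowerSeries.coeff_zero_eq_constantCoeff_apply, constantCoeff_jNum, map_one]

/-- The formal series `jq(c t^k)` over a commutative ring `R` (`c` a unit). For the Hermite
normal form `α = (a, b; 0, d)`, `a d = N`, and `t = q^(1/N)`, the expansion of `j ∘ α` is
`fs_y (ζ ^ (a * b)) (a ^ 2)` with `ζ = exp(2πi/N)`. -/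
def fs_y (c : Rˣ) (k : ℕ) [NeZero k] : LaurentSeries R := fs_subst c k (jqModC R)

variable (c : Rˣ) (k : ℕ) [NeZero k]

theorem fs_y_order [Nontrivial R] : (fs_y c k).order = -(k : ℤ) := by
  rw [fs_y, fs_jqModC_eq_shift, fs_subst_shift_order _ _ _ _
    (by rw [fs_constantCoeff_jNum_map]; exact one_ne_zero)]
  ring

theorem fs_y_leadingCoeff [Nontrivial R] : (fs_y c k).leadingCoeff = ((c⁻¹ : Rˣ) : R) := by
  rw [fs_y, fs_jqModC_eq_shift, fs_subst_shift_leadingCoeff _ _ _ _
    (by rw [fs_constantCoeff_jNum_map]; exact one_ne_zero), fs_constantCoeff_jNum_map, mul_one,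
    zpow_neg_one]

theorem fs_y_coeff_neg : (fs_y c k).coeff (-(k : ℤ)) = ((c⁻¹ : Rˣ) : R) := by
  have h : (-(k : ℤ)) = (k : ℤ) * (-1) := by ring
  rw [fs_y, h, fs_subst_coeff_mul, fs_jqModC_eq_shift, fs_shift_coeff_self,
    fs_constantCoeff_jNum_map, mul_one, zpow_neg_one]

theorem fs_y_coeff_of_lt {n : ℤ} (h : n < -(k : ℤ)) : (fs_y c k).coeff n = 0 := by
  by_cases hd : (k : ℤ) ∣ n
  · obtain ⟨m, rfl⟩ := hd
    have hkpos : (0 : ℤ) < k := by exact_mod_cast Nat.pos_of_ne_zero (NeZero.ne k)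
    have hm : m < -1 := by nlinarith
    rw [fs_y, fs_subst_coeff_mul, fs_jqModC_eq_shift, fs_shift_coeff_of_lt _ _ hm, mul_zero]
  · exact fs_subst_coeff_of_not_dvd c k _ hd

theorem fs_y_ne_zero [Nontrivial R] : fs_y c k ≠ 0 := by
  intro h
  have := fs_y_coeff_neg c k
  rw [h, HahnSeries.coeff_zero] at this
  exact (Units.ne_zero _) this.symm

theorem fs_coeffMap_jqModC (φ : R →+* S) : coeffMap φ (jqModC R) = jqModC S :=
  map_jqModC φ

theorem fs_coeffMap_y (φ : R →+* S) :
    coeffMap φ (fs_y c k) = fs_y (Units.map (φ : R →* S) c) k := by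
  rw [fs_y, fs_y, fs_coeffMap_subst, fs_coeffMap_jqModC]

/-- `jq(t^k)` is the prelude's `qExpand k jq`. -/
theorem fs_y_one : fs_y (1 : Rˣ) k = qExpand R k (jqModC R) := by
  rw [fs_y, fs_subst_one_eq_qExpand]

theorem fs_twist_y (e : Rˣ) : fs_twist e (fs_y c k) = fs_y (c * e ^ k) k := by
  rw [fs_y, fs_y, fs_twist_subst]

/-- Two of the series `jq(c t^k)` coincide only if the parameters do. -/
theorem fs_y_inj [Nontrivial R] {c c' : Rˣ} {k k' : ℕ} [NeZero k] [NeZero k']
    (h : fs_y c k = fs_y c' k') : k = k' ∧ c = c' := by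
  have hk : k = k' := by
    have h1 := fs_y_order c k
    rw [h, fs_y_order] at h1
    exact_mod_cast neg_injective h1.symm
  subst hk
  refine ⟨rfl, ?_⟩
  have h2 := fs_y_leadingCoeff c k
  rw [h, fs_y_leadingCoeff] at h2
  exact inv_injective (Units.ext h2.symm)

/-- Distinctness of the conjugates indexed by Hermite normal forms `(a, b, d)`, `a d = N`,
`0 ≤ b < d`: the series `jq(ζ^(a b) t^(a^2))` determines `(a, b, d)`, provided `ζ` is a
primitive `N`-th root of unity. -/
theorem fs_y_hnf_inj [Nontrivial R] {N : ℕ} [NeZero N] {ζ : Rˣ} (hζ : IsPrimitiveRoot ζ N)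
    {a b d a' b' d' : ℕ} [NeZero a] [NeZero a'] (had : a * d = N) (had' : a' * d' = N)
    (hb : b < d) (hb' : b' < d')
    (h : fs_y (ζ ^ (a * b)) (a ^ 2) = fs_y (ζ ^ (a' * b')) (a' ^ 2)) :
    a = a' ∧ b = b' ∧ d = d' := by
  obtain ⟨h1, h2⟩ := fs_y_inj h
  have ha : a = a' := by
    have := Nat.pow_left_injective (n := 2) (by norm_num) h1
    exact this
  subst ha
  have ha0 : 0 < a := Nat.pos_of_ne_zero (NeZero.ne a)
  have hd : d = d' := by
    have : a * d = a * d' := by rw [had, had']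
    exact Nat.eq_of_mul_eq_mul_left ha0 this
  subst hd
  refine ⟨rfl, ?_, rfl⟩
  -- `ζ ^ (a b) = ζ ^ (a b')` with `b, b' < d` forces `b = b'`
  have hlt : a * b < N := by rw [← had]; exact Nat.mul_lt_mul_of_pos_left hb ha0
  have hlt' : a * b' < N := by rw [← had]; exact Nat.mul_lt_mul_of_pos_left hb' ha0
  have := hζ.pow_inj hlt hlt' h2
  exact Nat.eq_of_mul_eq_mul_left ha0 this

/-! ### The formal discriminant and the modular units -/

/-- The formal discriminant `Δ = q ∏ (1 - q^n)^24` over `R`. -/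
def fs_Delta (R : Type*) [CommRing R] : LaurentSeries R :=
  fs_shift 1 (dedekindEtaUnit.map (Int.castRingHom R))

/-- The inverse of the formal discriminant. -/
def fs_DeltaInv (R : Type*) [CommRing R] : LaurentSeries R :=
  fs_shift (-1) (dedekindEtaUnitInv.map (Int.castRingHom R))

theorem fs_Delta_mul_inv (R : Type*) [CommRing R] : fs_Delta R * fs_DeltaInv R = 1 := by
  rw [fs_Delta, fs_DeltaInv, fs_shift_mul, ← map_mul, dedekindEtaUnit_mul_inv, map_one]
  exact fs_shift_zero_one

theorem fs_DeltaInv_mul (R : Type*) [CommRing R] : fs_DeltaInv R * fs_Delta R = 1 := by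
  rw [mul_comm, fs_Delta_mul_inv]

theorem fs_constantCoeff_eta_map (R : Type*) [CommRing R] :
    PowerSeries.constantCoeff (dedekindEtaUnit.map (Int.castRingHom R)) = 1 := by
  rw [← PowerSeries.coeff_zero_eq_constantCoeff_apply, PowerSeries.coeff_map,
    PowerSeries.coeff_zero_eq_constantCoeff_apply, constantCoeff_dedekindEtaUnit, map_one]

theorem fs_constantCoeff_etaInv_map (R : Type*) [CommRing R] :
    PowerSeries.constantCoeff (dedekindEtaUnitInv.map (Int.castRingHom R)) = 1 := by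
  rw [← PowerSeries.coeff_zero_eq_constantCoeff_apply, PowerSeries.coeff_map,
    PowerSeries.coeff_zero_eq_constantCoeff_apply, constantCoeff_dedekindEtaUnitInv, map_one]

theorem fs_coeffMap_Delta (φ : R →+* S) : coeffMap φ (fs_Delta R) = fs_Delta S := by
  rw [fs_Delta, fs_Delta, fs_coeffMap_shift, fs_map_map_intCast]

theorem fs_coeffMap_DeltaInv (φ : R →+* S) : coeffMap φ (fs_DeltaInv R) = fs_DeltaInv S := by
  rw [fs_DeltaInv, fs_DeltaInv, fs_coeffMap_shift, fs_map_map_intCast]

theorem fs_Delta_order [Nontrivial R] : (fs_Delta R).order = 1 :=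
  fs_shift_order _ _ (by rw [fs_constantCoeff_eta_map]; exact one_ne_zero)

theorem fs_DeltaInv_order [Nontrivial R] : (fs_DeltaInv R).order = -1 :=
  fs_shift_order _ _ (by rw [fs_constantCoeff_etaInv_map]; exact one_ne_zero)

/-- The formal modular unit `e * Δ(c t^k) / Δ(t^N)`. For `m ∣ N` and the Hermite normal form
`α_m = (a', b'; 0, d')` of `α` at level `m`, the conjugate `(u_m)_α` of
`u_m = m^12 Δ(m z)/Δ(z)` is `fs_u (a'^12) (ζ_{d'}^{b'}) (N a'/d') N`. -/
def fs_u (e c : Rˣ) (k N : ℕ) [NeZero k] [NeZero N] : LaurentSeries R :=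
  HahnSeries.C (e : R) * fs_subst c k (fs_Delta R) * fs_subst 1 N (fs_DeltaInv R)

/-- The inverse of `fs_u`. -/
def fs_uInv (e c : Rˣ) (k N : ℕ) [NeZero k] [NeZero N] : LaurentSeries R :=
  HahnSeries.C ((e⁻¹ : Rˣ) : R) * fs_subst c k (fs_DeltaInv R) * fs_subst 1 N (fs_Delta R)

variable (e : Rˣ) (N : ℕ) [NeZero N]

theorem fs_u_mul_uInv : fs_u e c k N * fs_uInv e c k N = 1 := by
  have h1 : fs_subst c k (fs_Delta R) * fs_subst c k (fs_DeltaInv R) = 1 := by
    rw [← map_mul, fs_Delta_mul_inv, map_one]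
  have h2 : fs_subst (1 : Rˣ) N (fs_DeltaInv R) * fs_subst 1 N (fs_Delta R) = 1 := by
    rw [← map_mul, fs_DeltaInv_mul, map_one]
  have h3 : (HahnSeries.C (e : R) : LaurentSeries R) * HahnSeries.C ((e⁻¹ : Rˣ) : R) = 1 := by
    rw [← map_mul, Units.mul_inv, map_one]
  calc fs_u e c k N * fs_uInv e c k N
      = (HahnSeries.C (e : R) * HahnSeries.C ((e⁻¹ : Rˣ) : R)) *
        (fs_subst c k (fs_Delta R) * fs_subst c k (fs_DeltaInv R)) *
        (fs_subst (1 : Rˣ) N (fs_DeltaInv R) * fs_subst 1 N (fs_Delta R)) := by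
        rw [fs_u, fs_uInv]; ring
    _ = 1 := by rw [h1, h2, h3, one_mul, one_mul]

theorem fs_uInv_mul_u : fs_uInv e c k N * fs_u e c k N = 1 := by
  rw [mul_comm, fs_u_mul_uInv]

theorem fs_isUnit_u : IsUnit (fs_u e c k N) :=
  IsUnit.of_mul_eq_one _ (fs_u_mul_uInv c k e N)

theorem fs_coeffMap_u (φ : R →+* S) :
    coeffMap φ (fs_u e c k N) =
      fs_u (Units.map (φ : R →* S) e) (Units.map (φ : R →* S) c) k N := by
  have hC : ∀ r : R, coeffMap φ (HahnSeries.C r) = HahnSeries.C (φ r) := fun r => by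
    rw [HahnSeries.C_apply, coeffMap_single, HahnSeries.C_apply]
  rw [fs_u, fs_u, map_mul, map_mul, hC, fs_coeffMap_subst, fs_coeffMap_subst, fs_coeffMap_Delta,
    fs_coeffMap_DeltaInv, map_one]
  rfl

theorem fs_coeffMap_uInv (φ : R →+* S) :
    coeffMap φ (fs_uInv e c k N) =
      fs_uInv (Units.map (φ : R →* S) e) (Units.map (φ : R →* S) c) k N := by
  have hC : ∀ r : R, coeffMap φ (HahnSeries.C r) = HahnSeries.C (φ r) := fun r => by
    rw [HahnSeries.C_apply, coeffMap_single, HahnSeries.C_apply]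
  rw [fs_uInv, fs_uInv, map_mul, map_mul, hC, fs_coeffMap_subst, fs_coeffMap_subst,
    fs_coeffMap_Delta, fs_coeffMap_DeltaInv, map_one, ← map_inv]
  rfl

/-- The order of the formal modular unit `e Δ(c t^k)/Δ(t^N)` is `k - N` (over a domain). -/
theorem fs_u_order [IsDomain R] : (fs_u e c k N).order = (k : ℤ) - N := by
  have h1 : (fs_subst c k (fs_Delta R)).order = k := by
    rw [fs_subst_order, fs_Delta_order, mul_one]
  have h2 : (fs_subst (1 : Rˣ) N (fs_DeltaInv R)).order = -(N : ℤ) := by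
    rw [fs_subst_order, fs_DeltaInv_order, mul_neg_one]
  have hne1 : fs_subst c k (fs_Delta R) ≠ 0 := by
    intro h
    have := fs_subst_injective c k (a₁ := fs_Delta R) (a₂ := 0) (by rw [h, map_zero])
    have h3 := fs_Delta_order (R := R)
    rw [this, HahnSeries.order_zero] at h3
    exact zero_ne_one h3
  have hne2 : fs_subst (1 : Rˣ) N (fs_DeltaInv R) ≠ 0 := by
    intro h
    have := fs_subst_injective (1 : Rˣ) N (a₁ := fs_DeltaInv R) (a₂ := 0) (by rw [h, map_zero])
    have h3 := fs_DeltaInv_order (R := R)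
    rw [this, HahnSeries.order_zero] at h3
    norm_num at h3
  have hne0 : (HahnSeries.C (e : R) : LaurentSeries R) ≠ 0 := HahnSeries.C_ne_zero e.ne_zero
  rw [fs_u, HahnSeries.order_mul (mul_ne_zero hne0 hne1) hne2, HahnSeries.order_mul hne0 hne1,
    HahnSeries.order_C, h1, h2]
  ring

end Fermat.Agent.S28
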