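/-
S28 (Igusa), shared FORMAL definitions of the conjugates in terms of Hermite data `(a, b, d)`
(architect file; a thin layer over helper10's `Formal/Subst.lean`, `Formal/Series.lean`).

* `fs_exp N a d`    : the exponent `N a / d` of `t = q^(1/N)` in `q^(a/d)`;
* `fs_root ζ N b d` : the root of unity `exp(2 π i b / d) = ζ^(N / d * b)`;
* `fs_jm ζ N a b d` : the formal `t`-expansion of `j((a z + b)/d)`  (`= fs_y root exp`);
* `fs_um ζ N a b d` : the formal `t`-expansion of `a^12 Δ((a z + b)/d) / Δ(z)`;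
* `fs_umInv`        : its inverse (with an explicit inverse `ainv` of `a`).
Here `ζ` plays the role of `exp(2 π i / N)` and always `a d ∣ N`.
-/
import Mathlib
import Fermat.Agent.S28.Formal.Series

set_option autoImplicit false

open HahnSeries ModularCurve

namespace Fermat.Agent.S28

variable {R : Type*} [CommRing R]

section families

variable (ζ : Rˣ) (N a b d : ℕ) [NeZero N]

/-- exponent of `t = q^(1/N)` in `q^(a/d)`, as a positive natural number (junk value `1` if
`N * a / d = 0`; in all uses `a d ∣ N`, so `d ∣ N`). -/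
def fs_exp : ℕ := if N * a / d = 0 then 1 else N * a / d

instance fs_exp_neZero : NeZero (fs_exp N a d) :=
  ⟨by unfold fs_exp; split_ifs with h <;> simp_all⟩

theorem fs_exp_eq {N a d : ℕ} (h : N * a / d ≠ 0) : fs_exp N a d = N * a / d := by
  unfold fs_exp; rw [if_neg h]

/-- the root of unity `exp(2 π i b / d) = ζ^(N / d * b)` -/
def fs_root : Rˣ := ζ ^ (N / d * b)

/-- formal `t`-expansion (`t = q^(1/N)`) of `j((a z + b)/d)`, for `a d ∣ N` -/
noncomputable def fs_jm : LaurentSeries R :=
  fs_y (fs_root ζ N b d) (fs_exp N a d)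

/-- formal `t`-expansion of the modular unit `a^12 Δ((a z + b)/d) / Δ(z)`, for `a d ∣ N` -/
noncomputable def fs_um : LaurentSeries R :=
  HahnSeries.C ((a : R) ^ 12) * fs_subst (fs_root ζ N b d) (fs_exp N a d) (fs_Delta R) *
    fs_subst 1 N (fs_DeltaInv R)

/-- formal `t`-expansion of the inverse unit `a^(-12) Δ(z) / Δ((a z + b)/d)`; `ainv` is the
inverse of `a` in `R` (an argument, so that no field structure on `R` is needed). -/
noncomputable def fs_umInv (ainv : R) : LaurentSeries R :=
  HahnSeries.C (ainv ^ 12) * fs_subst (fs_root ζ N b d) (fs_exp N a d) (fs_DeltaInv R) *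
    fs_subst 1 N (fs_Delta R)

/-- `fs_um` is helper10's `fs_u` with the unit `e = a^12`. -/
theorem fs_um_eq_u (e : Rˣ) (he : (e : R) = (a : R) ^ 12) :
    fs_um ζ N a b d = fs_u e (fs_root ζ N b d) (fs_exp N a d) N := by
  rw [fs_um, fs_u, he]

/-- `fs_umInv` is helper10's `fs_uInv` with the unit `e = a^12`. -/
theorem fs_umInv_eq_uInv (e : Rˣ) (he : (e : R) = (a : R) ^ 12) (ainv : R)
    (hainv : (a : R) * ainv = 1) :
    fs_umInv ζ N a b d ainv = fs_uInv e (fs_root ζ N b d) (fs_exp N a d) N := by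
  have h1 : ((e⁻¹ : Rˣ) : R) = ainv ^ 12 := by
    have h2 : (e : R) * ainv ^ 12 = 1 := by rw [he, ← mul_pow, hainv, one_pow]
    exact (Units.inv_eq_of_mul_eq_one_right h2)
  rw [fs_umInv, fs_uInv, h1]

theorem fs_um_mul_umInv (ainv : R) (hainv : (a : R) * ainv = 1) :
    fs_um ζ N a b d * fs_umInv ζ N a b d ainv = 1 := by
  have hu : IsUnit ((a : R) ^ 12) :=
    IsUnit.of_mul_eq_one (ainv ^ 12) (by rw [← mul_pow, hainv, one_pow])
  obtain ⟨e, he⟩ := hu
  rw [fs_um_eq_u ζ N a b d e he, fs_umInv_eq_uInv ζ N a b d e he ainv hainv, fs_u_mul_uInv]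

end families

end Fermat.Agent.S28
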