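/-
S28 (Igusa), the INTERFACE structure between the analytic node (W2, producing the datum over
`R₀ = ℤ[ζ_N, 1/N] ⊆ ℂ`), the transfer (`IgDatum.map` along any ring hom `R₀ → K`) and the
norm/irreducibility node (W4, over a field in which `ζ` is a primitive `N`-th root of unity).
Architect file: definitions + functoriality only.
-/
import Mathlib
import Fermat.Agent.S28.Formal.Defs

set_option autoImplicit false

open ModularCurve Polynomial

namespace Fermat.Agent.S28

/-- the `t`-expansion (`t = q^(1/N)`) of `j(z)`, i.e. `j(t^N)` -/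
noncomputable def fs_jT (R : Type*) [CommRing R] (N : ℕ) [NeZero N] : LaurentSeries R :=
  qExpand R N (jqModC R)

/-- evaluation `R[Z] → R((t))`, `Z ↦ j(t^N)` -/
noncomputable def fs_evalJ (R : Type*) [CommRing R] (N : ℕ) [NeZero N] :
    Polynomial R →+* LaurentSeries R :=
  Polynomial.eval₂RingHom HahnSeries.C (fs_jT R N)

/-- **Igusa datum** over a commutative ring `R` with a distinguished unit `ζ` (a primitive `N`-th
root of unity in all uses):
* a finite index type `ι` (the cosets `Γ₀(N)\SL₂(ℤ)`), with Hermite data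
  `(A x m, B x m, m / A x m)` of `diag(m,1) γ_x` for every `m ∣ N`;
* the conjugates `y x = j((a z + b)/d)` (level `N`) and the modular units
  `u m x = a^12 Δ((a z + b)/d)/Δ(z)` (level `m ∣ N`), all as formal `t`-expansions (`Defs.lean`);
* the symmetric-function identities: the polynomials `Φ, Up m, Um m, G m ∈ R[Z][X]` evaluate
  (at `Z = j(t^N)`) to the indicated symmetric expressions. -/
structure IgDatum (R : Type*) [CommRing R] (ζ : Rˣ) (N : ℕ) [NeZero N] where
  ι : Type
  [fin : Fintype ι]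
  [dec : DecidableEq ι]
  A : ι → ℕ → ℕ
  B : ι → ℕ → ℕ
  x₀ : ι
  A_gcd : ∀ x m, m ∣ N → A x m = Nat.gcd (A x N) m
  A_x₀ : A x₀ N = N
  B_lt : ∀ x, B x N < N / A x N
  inj : ∀ x x', A x N = A x' N → B x N = B x' N → x = x'
  Ninv : R
  N_mul_Ninv : (N : R) * Ninv = 1
  Φ : Polynomial (Polynomial R)
  Up : ℕ → Polynomial (Polynomial R)
  Um : ℕ → Polynomial (Polynomial R)
  G : ℕ → Polynomial (Polynomial R)
  Φ_eq : Φ.map (fs_evalJ R N) =
    ∏ x : ι, (X - C (fs_jm ζ N (A x N) (B x N) (N / A x N)))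
  Up_eq : ∀ m, m ∣ N → (Up m).map (fs_evalJ R N) =
    ∏ x : ι, (X - C (fs_um ζ N (A x m) (B x m) (m / A x m)))
  Um_eq : ∀ m, m ∣ N → (Um m).map (fs_evalJ R N) =
    ∏ x : ι, (X - C (fs_umInv ζ N (A x m) (B x m) (m / A x m) (((N / A x m : ℕ) : R) * Ninv)))
  G_eq : ∀ m, m ∣ N → (G m).map (fs_evalJ R N) =
    ∑ x : ι, C (fs_um ζ N (A x m) (B x m) (m / A x m)) *
      ∏ x' ∈ (Finset.univ.erase x), (X - C (fs_jm ζ N (A x' N) (B x' N) (N / A x' N)))

attribute [instance] IgDatum.fin IgDatum.dec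

/-! ### functoriality in the coefficient ring -/

section functoriality

variable {R S : Type*} [CommRing R] [CommRing S] (φ : R →+* S)

theorem fs_coeffMap_C (r : R) :
    coeffMap φ (HahnSeries.C r) = HahnSeries.C (φ r) := by
  rw [HahnSeries.C_apply, coeffMap_single, HahnSeries.C_apply]

theorem fs_coeffMap_jT (N : ℕ) [NeZero N] : coeffMap φ (fs_jT R N) = fs_jT S N := by
  rw [fs_jT, fs_jT, fs_coeffMap_qExpand, fs_coeffMap_jqModC]

theorem fs_coeffMap_comp_evalJ (N : ℕ) [NeZero N] :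
    (coeffMap φ).comp (fs_evalJ R N) = (fs_evalJ S N).comp (Polynomial.mapRingHom φ) := by
  refine Polynomial.ringHom_ext (fun r => ?_) ?_
  · simp only [RingHom.comp_apply, fs_evalJ, Polynomial.coe_eval₂RingHom, Polynomial.eval₂_C,
      Polynomial.coe_mapRingHom, Polynomial.map_C]
    exact fs_coeffMap_C φ r
  · simp only [RingHom.comp_apply, fs_evalJ, Polynomial.coe_eval₂RingHom, Polynomial.eval₂_X,
      Polynomial.coe_mapRingHom, Polynomial.map_X]
    exact fs_coeffMap_jT φ N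

theorem fs_map_root (ζ : Rˣ) (N b d : ℕ) :
    Units.map (φ : R →* S) (fs_root ζ N b d) = fs_root (Units.map (φ : R →* S) ζ) N b d := by
  rw [fs_root, fs_root, map_pow]

theorem fs_coeffMap_jm (ζ : Rˣ) (N a b d : ℕ) [NeZero N] :
    coeffMap φ (fs_jm ζ N a b d) = fs_jm (Units.map (φ : R →* S) ζ) N a b d := by
  rw [fs_jm, fs_jm, fs_coeffMap_y, fs_map_root]

theorem fs_coeffMap_um (ζ : Rˣ) (N a b d : ℕ) [NeZero N] :
    coeffMap φ (fs_um ζ N a b d) = fs_um (Units.map (φ : R →* S) ζ) N a b d := by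
  rw [fs_um, fs_um, map_mul, map_mul, fs_coeffMap_C, fs_coeffMap_subst, fs_coeffMap_subst,
    fs_coeffMap_Delta, fs_coeffMap_DeltaInv, map_one, fs_map_root, map_pow, map_natCast]

theorem fs_coeffMap_umInv (ζ : Rˣ) (N a b d : ℕ) [NeZero N] (ainv : R) :
    coeffMap φ (fs_umInv ζ N a b d ainv) =
      fs_umInv (Units.map (φ : R →* S) ζ) N a b d (φ ainv) := by
  rw [fs_umInv, fs_umInv, map_mul, map_mul, fs_coeffMap_C, fs_coeffMap_subst, fs_coeffMap_subst,
    fs_coeffMap_Delta, fs_coeffMap_DeltaInv, map_one, fs_map_root, map_pow]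

/-- transport of an identity `P.map evalJ = Q` along a coefficient homomorphism -/
theorem fs_map_map_evalJ (N : ℕ) [NeZero N] (P : Polynomial (Polynomial R)) :
    (P.map (Polynomial.mapRingHom φ)).map (fs_evalJ S N) =
      (P.map (fs_evalJ R N)).map (coeffMap φ) := by
  rw [Polynomial.map_map, Polynomial.map_map, fs_coeffMap_comp_evalJ]

end functoriality

namespace IgDatum

section basic

variable {R : Type*} [CommRing R] {ζ : Rˣ} {N : ℕ} [NeZero N] (D : IgDatum R ζ N)

/-- the level-`N` conjugates `y x` -/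
noncomputable def y (x : D.ι) : LaurentSeries R :=
  fs_jm ζ N (D.A x N) (D.B x N) (N / D.A x N)

/-- the modular units -/
noncomputable def u (m : ℕ) (x : D.ι) : LaurentSeries R :=
  fs_um ζ N (D.A x m) (D.B x m) (m / D.A x m)

/-- the inverses of the modular units -/
noncomputable def uInv (m : ℕ) (x : D.ι) : LaurentSeries R :=
  fs_umInv ζ N (D.A x m) (D.B x m) (m / D.A x m) (((N / D.A x m : ℕ) : R) * D.Ninv)

theorem A_dvd_of_dvd (x : D.ι) {m : ℕ} (hm : m ∣ N) : D.A x m ∣ m := by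
  rw [D.A_gcd x m hm]; exact Nat.gcd_dvd_right _ _

theorem A_dvd (x : D.ι) {m : ℕ} (hm : m ∣ N) : D.A x m ∣ N :=
  (D.A_dvd_of_dvd x hm).trans hm

theorem A_mul_inv (x : D.ι) {m : ℕ} (hm : m ∣ N) :
    ((D.A x m : ℕ) : R) * (((N / D.A x m : ℕ) : R) * D.Ninv) = 1 := by
  rw [← mul_assoc, ← Nat.cast_mul, Nat.mul_div_cancel' (D.A_dvd x hm), D.N_mul_Ninv]

theorem u_mul_uInv (x : D.ι) {m : ℕ} (hm : m ∣ N) : D.u m x * D.uInv m x = 1 :=
  fs_um_mul_umInv ζ N _ _ _ _ (D.A_mul_inv x hm)

end basic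

section map

variable {R S : Type*} [CommRing R] [CommRing S] {ζ : Rˣ} {N : ℕ} [NeZero N]

/-- **transfer** of an Igusa datum along a ring homomorphism -/
noncomputable def map (D : IgDatum R ζ N) (φ : R →+* S) :
    IgDatum S (Units.map (φ : R →* S) ζ) N where
  ι := D.ι
  A := D.A
  B := D.B
  x₀ := D.x₀
  A_gcd := D.A_gcd
  A_x₀ := D.A_x₀
  B_lt := D.B_lt
  inj := D.inj
  Ninv := φ D.Ninv
  N_mul_Ninv := by rw [← map_natCast φ, ← map_mul, D.N_mul_Ninv, map_one]
  Φ := D.Φ.map (Polynomial.mapRingHom φ)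
  Up := fun m => (D.Up m).map (Polynomial.mapRingHom φ)
  Um := fun m => (D.Um m).map (Polynomial.mapRingHom φ)
  G := fun m => (D.G m).map (Polynomial.mapRingHom φ)
  Φ_eq := by
    rw [fs_map_map_evalJ, D.Φ_eq, Polynomial.map_prod]
    refine Finset.prod_congr rfl fun x _ => ?_
    rw [Polynomial.map_sub, Polynomial.map_X, Polynomial.map_C, fs_coeffMap_jm]
  Up_eq := fun m hm => by
    rw [fs_map_map_evalJ, D.Up_eq m hm, Polynomial.map_prod]
    refine Finset.prod_congr rfl fun x _ => ?_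
    rw [Polynomial.map_sub, Polynomial.map_X, Polynomial.map_C, fs_coeffMap_um]
  Um_eq := fun m hm => by
    rw [fs_map_map_evalJ, D.Um_eq m hm, Polynomial.map_prod]
    refine Finset.prod_congr rfl fun x _ => ?_
    rw [Polynomial.map_sub, Polynomial.map_X, Polynomial.map_C, fs_coeffMap_umInv, map_mul,
      map_natCast]
  G_eq := fun m hm => by
    rw [fs_map_map_evalJ, D.G_eq m hm, Polynomial.map_sum]
    refine Finset.sum_congr rfl fun x _ => ?_
    rw [Polynomial.map_mul, Polynomial.map_C, fs_coeffMap_um, Polynomial.map_prod]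
    congr 1
    refine Finset.prod_congr rfl fun x' _ => ?_
    rw [Polynomial.map_sub, Polynomial.map_X, Polynomial.map_C, fs_coeffMap_jm]

end map

end IgDatum

end Fermat.Agent.S28
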