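/-
S28 (Igusa), work item W3: formal Laurent-series side, part 3.
Orders of polynomials in a Laurent series with a pole; units of `K[f]` have order zero.
Owner: helper10.  Prefix `fs_`.
-/
import Mathlib
import Fermat.Agent.S28.Formal.Subst

set_option autoImplicit false

noncomputable section

open HahnSeries Polynomial

namespace Fermat.Agent.S28

variable {K : Type*} [Field K]

theorem fs_pow_order (f : LaurentSeries K) (i : ℕ) : (f ^ i).order = (i : ℤ) * f.order := by
  induction i with
  | zero => simp
  | succ i ih =>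
    by_cases hf : f = 0
    · subst hf
      simp
    · rw [pow_succ, HahnSeries.order_mul (pow_ne_zero i hf) hf, ih]
      push_cast
      ring

theorem fs_pow_coeff_order (f : LaurentSeries K) (i : ℕ) :
    (f ^ i).coeff ((i : ℤ) * f.order) = f.leadingCoeff ^ i := by
  induction i with
  | zero => simp
  | succ i ih =>
    have h := HahnSeries.coeff_mul_order_add_order (f ^ i) f
    rw [fs_pow_order, HahnSeries.leadingCoeff_eq, fs_pow_order, ih] at h
    rw [pow_succ, pow_succ]
    have h2 : ((i + 1 : ℕ) : ℤ) * f.order = (i : ℤ) * f.order + f.order := by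
      push_cast; ring
    rw [h2, h]

/-- The coefficient of `p(f)` at `deg p * ord f` and below, for `f` with a pole. -/
theorem fs_aeval_coeff_le {f : LaurentSeries K} (hf : f.order < 0) (p : K[X]) {n : ℤ}
    (hn : n ≤ (p.natDegree : ℤ) * f.order) :
    (aeval f p).coeff n = p.leadingCoeff * (f ^ p.natDegree).coeff n := by
  have key : ∀ i, (algebraMap K (LaurentSeries K) (p.coeff i) * f ^ i).coeff n =
      p.coeff i * (f ^ i).coeff n := fun i => by
    rw [ModularCurve.algebraMap_laurentSeries_eq_single, HahnSeries.coeff_single_zero_mul]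
  rw [aeval_eq_sum_range, HahnSeries.coeff_sum]
  simp only [Algebra.smul_def]
  refine Eq.trans (Finset.sum_congr rfl fun i _ => key i) ?_
  rw [Finset.sum_range_succ]
  have hzero : ∀ i ∈ Finset.range p.natDegree, p.coeff i * (f ^ i).coeff n = 0 := by
    intro i hi
    have hi' : i < p.natDegree := Finset.mem_range.mp hi
    have : n < (f ^ i).order := by
      rw [fs_pow_order]
      have h1 : ((i : ℤ) + 1) ≤ p.natDegree := by exact_mod_cast hi'
      nlinarith
    rw [HahnSeries.coeff_eq_zero_of_lt_order this, mul_zero]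
  rw [Finset.sum_eq_zero hzero, zero_add]
  rfl

/-- The order of `p(f)` for `f` with a pole is `deg p * ord f`. -/
theorem fs_aeval_order {f : LaurentSeries K} (hf : f.order < 0) {p : K[X]} (hp : p ≠ 0) :
    (aeval f p).order = (p.natDegree : ℤ) * f.order := by
  have hf0 : f ≠ 0 := by
    rintro rfl
    simp at hf
  refine fs_order_eq_of ?_ ?_
  · rw [fs_aeval_coeff_le hf p le_rfl, fs_pow_coeff_order]
    exact mul_ne_zero (leadingCoeff_ne_zero.mpr hp)
      (pow_ne_zero _ (HahnSeries.leadingCoeff_ne_zero.mpr hf0))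
  · intro n hn
    rw [fs_aeval_coeff_le hf p hn.le]
    have : n < (f ^ p.natDegree).order := by rwa [fs_pow_order]
    rw [HahnSeries.coeff_eq_zero_of_lt_order this, mul_zero]

theorem fs_aeval_ne_zero {f : LaurentSeries K} (hf : f.order < 0) {p : K[X]} (hp : p ≠ 0) :
    aeval f p ≠ 0 := by
  intro h
  have hf0 : f ≠ 0 := by
    rintro rfl
    simp at hf
  have h1 := fs_aeval_coeff_le hf p (le_refl ((p.natDegree : ℤ) * f.order))
  rw [h, HahnSeries.coeff_zero, fs_pow_coeff_order] at h1
  exact mul_ne_zero (leadingCoeff_ne_zero.mpr hp)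
    (pow_ne_zero _ (HahnSeries.leadingCoeff_ne_zero.mpr hf0)) h1.symm

/-- A Laurent series with a pole is transcendental over the coefficient field. -/
theorem fs_transcendental_of_order_neg {f : LaurentSeries K} (hf : f.order < 0) :
    Transcendental K f := by
  intro ⟨p, hp, h⟩
  exact fs_aeval_ne_zero hf hp h

theorem fs_aeval_injective {f : LaurentSeries K} (hf : f.order < 0) :
    Function.Injective (aeval f : K[X] →ₐ[K] LaurentSeries K) := by
  rw [injective_iff_map_eq_zero]
  intro p hp
  by_contra h
  exact fs_aeval_ne_zero hf h hp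

/-- A unit of `K[f]` (`f` with a pole) has order zero: the step "a unit of `K[j̄]` is a
constant" of the norm argument. -/
theorem fs_order_eq_zero_of_mul_eq_one {f : LaurentSeries K} (hf : f.order < 0)
    {x y : LaurentSeries K} (hx : x ∈ Algebra.adjoin K {f}) (hy : y ∈ Algebra.adjoin K {f})
    (hxy : x * y = 1) : x.order = 0 := by
  rw [Algebra.adjoin_singleton_eq_range_aeval] at hx hy
  obtain ⟨p, rfl⟩ := hx
  obtain ⟨p', rfl⟩ := hy
  have hp : p ≠ 0 := by
    rintro rfl
    rw [map_zero, zero_mul] at hxy
    exact zero_ne_one hxy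
  have hp' : p' ≠ 0 := by
    rintro rfl
    rw [map_zero, mul_zero] at hxy
    exact zero_ne_one hxy
  have h1 := HahnSeries.order_mul (fs_aeval_ne_zero hf hp) (fs_aeval_ne_zero hf hp')
  have hxy' : (aeval f) p * (aeval f) p' = 1 := hxy
  rw [hxy', HahnSeries.order_one, fs_aeval_order hf hp, fs_aeval_order hf hp'] at h1
  have h2 : ((p.natDegree : ℤ) + p'.natDegree) * f.order = 0 := by linarith
  have h3 : (p.natDegree : ℤ) + p'.natDegree = 0 := by
    rcases mul_eq_zero.mp h2 with h | h
    · exact h
    · exact absurd h hf.ne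
  have h4 : (p.natDegree : ℤ) = 0 := by
    have := Int.natCast_nonneg p'.natDegree
    have := Int.natCast_nonneg p.natDegree
    linarith
  show (aeval f p).order = 0
  rw [fs_aeval_order hf hp, h4, zero_mul]

/-- A unit of `K[f]` is a nonzero constant. -/
theorem fs_eq_C_of_mul_eq_one {f : LaurentSeries K} (hf : f.order < 0)
    {x y : LaurentSeries K} (hx : x ∈ Algebra.adjoin K {f}) (hy : y ∈ Algebra.adjoin K {f})
    (hxy : x * y = 1) : ∃ a : K, a ≠ 0 ∧ x = HahnSeries.C a := by
  rw [Algebra.adjoin_singleton_eq_range_aeval] at hx hy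
  obtain ⟨p, rfl⟩ := hx
  obtain ⟨p', rfl⟩ := hy
  have hxy' : aeval f (p * p') = aeval f (1 : K[X]) := by
    rw [map_mul, map_one]; exact hxy
  have h1 : p * p' = 1 := fs_aeval_injective hf hxy'
  have hu : IsUnit p := IsUnit.of_mul_eq_one _ h1
  obtain ⟨a, ha, rfl⟩ := Polynomial.isUnit_iff.mp hu
  refine ⟨a, ha.ne_zero, ?_⟩
  show aeval f (Polynomial.C a) = HahnSeries.C a
  rw [aeval_C, ModularCurve.algebraMap_laurentSeries_eq_single]
  rfl

end Fermat.Agent.S28
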