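import Mathlib
import Fermat.Agent.S16.Defs
import Fermat.Prelude.Def_GaloisRep_Flat

/-!
# S28, node [RH]: existence of the reduction homomorphism

`Rl ℓ ⊂ ℂ` (the ring of `ℓ`-integral algebraic numbers of `S16/Defs.lean`) admits a ring
homomorphism to every algebraically closed field `K` of characteristic `ℓ`
(`rh_exists_hom`): take a maximal ideal `m` containing `ℓ` (`ℓ` is not a unit), observe that
`Rl ℓ ⧸ m` is algebraic over `ZMod ℓ`, and embed it into `K`.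

In particular so does `R0 = ℤ[ζ_N, 1/N] = Subring.closure {ζ, (N : ℂ)⁻¹}` when `ℓ ∤ N`
(`rh_exists_hom_closure`), and the image of `ζ` is again a primitive `N`-th root of unity
(`rh_isPrimitiveRoot_map`: "`ζ_N` stays primitive mod `ℓ`").
-/

set_option autoImplicit false
set_option linter.style.haveILetI false

namespace Fermat.Agent.S28

open Polynomial Fermat.Agent.S16

/-- `ℓ` is not a unit of `Rl ℓ`. -/
theorem rh_span_ne_top (ℓ : ℕ) [hℓ : Fact ℓ.Prime] :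
    Ideal.span {((ℓ : ℕ) : ↥(Rl ℓ))} ≠ ⊤ := by
  intro h
  rw [Ideal.span_singleton_eq_top] at h
  obtain ⟨y, hy⟩ := h.exists_right_inv
  have h1 : ((ℓ : ℂ)) * (y : ℂ) = 1 := by
    have := congrArg (Subtype.val) hy
    simpa using this
  exact one_ne_mul_of_mem hℓ.out y.2 h1.symm

/-- Every element of a quotient field of `Rl ℓ` in which `ℓ = 0` is algebraic over `ZMod ℓ`. -/
theorem rh_isAlgebraic_quot (ℓ : ℕ) [hℓ : Fact ℓ.Prime] (m : Ideal ↥(Rl ℓ)) [m.IsMaximal]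
    [CharP (↥(Rl ℓ) ⧸ m) ℓ] :
    letI : Field (↥(Rl ℓ) ⧸ m) := Ideal.Quotient.field m
    letI : Algebra (ZMod ℓ) (↥(Rl ℓ) ⧸ m) := ZMod.algebra _ ℓ
    Algebra.IsAlgebraic (ZMod ℓ) (↥(Rl ℓ) ⧸ m) := by
  letI : Field (↥(Rl ℓ) ⧸ m) := Ideal.Quotient.field m
  letI : Algebra (ZMod ℓ) (↥(Rl ℓ) ⧸ m) := ZMod.algebra _ ℓ
  refine ⟨fun x => ?_⟩
  obtain ⟨x, rfl⟩ := Ideal.Quotient.mk_surjective x
  obtain ⟨d, hd, hdl, hint⟩ := x.2
  have hint' : IsIntegral ℤ ((d : ↥(Rl ℓ)) * x) := by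
    have hinj : Function.Injective ((Rl ℓ).subtype) := Subtype.val_injective
    have : IsIntegral ℤ ((Rl ℓ).subtype ((d : ↥(Rl ℓ)) * x)) := by
      simpa using hint
    exact (isIntegral_algHom_iff ((Rl ℓ).subtype.toIntAlgHom) hinj).mp this
  have h2 : IsIntegral ℤ (Ideal.Quotient.mk m ((d : ↥(Rl ℓ)) * x)) :=
    hint'.map (Ideal.Quotient.mk m).toIntAlgHom
  have h3 : IsIntegral (ZMod ℓ) (Ideal.Quotient.mk m ((d : ↥(Rl ℓ)) * x)) :=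
    h2.tower_top
  have hdunit : IsUnit ((d : ℕ) : ZMod ℓ) := (ZMod.isUnit_iff_coprime d ℓ).mpr hdl
  obtain ⟨u, hu⟩ := hdunit
  have h4 : Ideal.Quotient.mk m x =
      algebraMap (ZMod ℓ) (↥(Rl ℓ) ⧸ m) ((u⁻¹ : (ZMod ℓ)ˣ) : ZMod ℓ) *
        Ideal.Quotient.mk m ((d : ↥(Rl ℓ)) * x) := by
    rw [map_mul, ← mul_assoc]
    have : algebraMap (ZMod ℓ) (↥(Rl ℓ) ⧸ m) ((u⁻¹ : (ZMod ℓ)ˣ) : ZMod ℓ) *
        Ideal.Quotient.mk m (d : ↥(Rl ℓ)) = 1 := by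
      have h5 : Ideal.Quotient.mk m (d : ↥(Rl ℓ)) = algebraMap (ZMod ℓ) (↥(Rl ℓ) ⧸ m) (u : ZMod ℓ) := by
        rw [hu]; simp
      rw [h5, ← map_mul, Units.inv_mul, map_one]
    rw [this, one_mul]
  rw [h4]
  exact (isIntegral_algebraMap.mul h3).isAlgebraic

/-- **The reduction homomorphism**: the ring of `ℓ`-integral algebraic numbers maps to every
algebraically closed field of characteristic `ℓ`. -/
theorem rh_exists_hom (ℓ : ℕ) [hℓ : Fact ℓ.Prime] (K : Type*) [Field K] [CharP K ℓ]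
    [IsAlgClosed K] : Nonempty (↥(Rl ℓ) →+* K) := by
  obtain ⟨m, hm, hle⟩ := Ideal.exists_le_maximal _ (rh_span_ne_top ℓ)
  haveI := hm
  letI : Field (↥(Rl ℓ) ⧸ m) := Ideal.Quotient.field m
  have hℓ0 : ((ℓ : ℕ) : ↥(Rl ℓ) ⧸ m) = 0 := by
    have hmem : ((ℓ : ℕ) : ↥(Rl ℓ)) ∈ m := hle (Ideal.subset_span rfl)
    have := Ideal.Quotient.eq_zero_iff_mem.mpr hmem
    simpa using this
  haveI : CharP (↥(Rl ℓ) ⧸ m) ℓ := (CharP.charP_iff_prime_eq_zero hℓ.out).mpr hℓ0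
  letI : Algebra (ZMod ℓ) (↥(Rl ℓ) ⧸ m) := ZMod.algebra _ ℓ
  letI : Algebra (ZMod ℓ) K := ZMod.algebra _ ℓ
  haveI : Algebra.IsAlgebraic (ZMod ℓ) (↥(Rl ℓ) ⧸ m) := rh_isAlgebraic_quot ℓ m
  exact ⟨((IsAlgClosed.lift : (↥(Rl ℓ) ⧸ m) →ₐ[ZMod ℓ] K) : (↥(Rl ℓ) ⧸ m) →+* K).comp
    (Ideal.Quotient.mk m)⟩

/-- The same for every subring of `Rl ℓ`. -/
theorem rh_exists_hom_of_le (ℓ : ℕ) [Fact ℓ.Prime] (K : Type*) [Field K] [CharP K ℓ]
    [IsAlgClosed K] (R : Subring ℂ) (hR : R ≤ Rl ℓ) : Nonempty (↥R →+* K) := by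
  obtain ⟨ρ⟩ := rh_exists_hom ℓ K
  exact ⟨ρ.comp (Subring.inclusion hR)⟩

/-- `ℤ[ζ, 1/N] ⊆ Rl ℓ` for a root of unity `ζ` and `ℓ ∤ N`. -/
theorem rh_closure_le {N ℓ : ℕ} (hN : 0 < N) (hℓ : ℓ.Prime) (hℓN : ¬ ℓ ∣ N) {ζ : ℂ}
    (hζ : ζ ^ N = 1) : Subring.closure {ζ, (N : ℂ)⁻¹} ≤ Rl ℓ := by
  rw [Subring.closure_le]
  rintro x (rfl | rfl)
  · exact mem_Rl_of_pow_eq_one ℓ hN hζ
  · exact inv_natCast_mem_Rl hN ((Nat.Prime.coprime_iff_not_dvd hℓ).mpr hℓN).symm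

/-- In a field of characteristic `ℓ`, a natural number prime to `ℓ` is nonzero. -/
theorem rh_neZero_natCast {N ℓ : ℕ} [Fact ℓ.Prime] (hℓN : ¬ ℓ ∣ N) (K : Type*) [Field K]
    [CharP K ℓ] : NeZero (N : K) :=
  ⟨fun h => hℓN ((CharP.cast_eq_zero_iff K ℓ N).mp h)⟩

/-- A ring homomorphism from a domain to a field in which `N ≠ 0` maps primitive `N`-th roots of
unity to primitive `N`-th roots of unity. -/
theorem rh_isPrimitiveRoot_map {R K : Type*} [CommRing R] [IsDomain R] [Field K] (ρ : R →+* K)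
    {N : ℕ} [NeZero (N : K)] {ζ : R} (hζ : IsPrimitiveRoot ζ N) : IsPrimitiveRoot (ρ ζ) N := by
  have hN : 0 < N := Nat.pos_of_ne_zero (fun h => by
    have := NeZero.ne ((N : ℕ) : K); rw [h] at this; simp at this)
  have h1 : IsRoot (cyclotomic N R) ζ := hζ.isRoot_cyclotomic hN
  rw [← Polynomial.isRoot_cyclotomic_iff, ← Polynomial.map_cyclotomic N ρ]
  rw [IsRoot.def, eval_map, eval₂_hom]
  rw [IsRoot.def] at h1
  rw [h1, map_zero]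

/-- **The reduction hom on `R0 = ℤ[ζ_N, 1/N]`**. -/
theorem rh_exists_hom_closure {N ℓ : ℕ} [NeZero N] [hℓ : Fact ℓ.Prime] (hℓN : ¬ ℓ ∣ N)
    (K : Type*) [Field K] [CharP K ℓ] [IsAlgClosed K] {ζ : ℂ} (hζ : IsPrimitiveRoot ζ N) :
    ∃ ρ : ↥(Subring.closure {ζ, (N : ℂ)⁻¹}) →+* K,
      IsPrimitiveRoot (ρ ⟨ζ, Subring.subset_closure (Set.mem_insert _ _)⟩) N ∧
      ρ ⟨(N : ℂ)⁻¹, Subring.subset_closure (Set.mem_insert_of_mem _ rfl)⟩ * (N : K) = 1 := by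
  have hN : 0 < N := Nat.pos_of_ne_zero (NeZero.ne N)
  obtain ⟨ρ⟩ := rh_exists_hom_of_le ℓ K _ (rh_closure_le hN hℓ.out hℓN hζ.pow_eq_one)
  haveI := rh_neZero_natCast hℓN K
  refine ⟨ρ, ?_, ?_⟩
  · refine rh_isPrimitiveRoot_map ρ ?_
    exact IsPrimitiveRoot.of_map_of_injective (f := (Subring.closure {ζ, (N : ℂ)⁻¹}).subtype)
      (by simpa using hζ) Subtype.val_injective
  · have h1 : (⟨(N : ℂ)⁻¹, Subring.subset_closure (Set.mem_insert_of_mem _ rfl)⟩ :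
        ↥(Subring.closure {ζ, (N : ℂ)⁻¹})) * ((N : ℕ) : ↥(Subring.closure {ζ, (N : ℂ)⁻¹})) = 1 := by
      apply Subtype.ext
      have : (N : ℂ) ≠ 0 := by exact_mod_cast hN.ne'
      simp [inv_mul_cancel₀ this]
    have := congrArg ρ h1
    simpa using this

/-- A rational number which is `ℓ`-integral as a complex number lies in `ℤ_(ℓ)`
(node (8b-i) of the S28 wiring). -/
theorem rh_rat_mem {ℓ : ℕ} [Fact ℓ.Prime] (r : ℚ) (h : (r : ℂ) ∈ Fermat.Agent.S16.Rl ℓ) :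
    r ∈ GaloisRep.ratLocalizedAt ℓ := by
  obtain ⟨d, hd, hdl, hint⟩ := h
  have hq : (d : ℂ) * (r : ℂ) = algebraMap ℚ ℂ ((d : ℚ) * r) := by
    simp
  rw [hq, isIntegral_algebraMap_iff (algebraMap ℚ ℂ).injective,
    IsIntegrallyClosed.isIntegral_iff] at hint
  obtain ⟨m, hm⟩ := hint
  have hd0 : (d : ℚ) ≠ 0 := by exact_mod_cast hd.ne'
  have hr : r = (m : ℚ) / ((d : ℤ) : ℚ) := by
    have : ((m : ℤ) : ℚ) = (d : ℚ) * r := by simpa using hm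
    rw [this]; push_cast; field_simp
  have hden : ((r.den : ℕ) : ℤ) ∣ (d : ℤ) := by
    rw [hr, ← Rat.divInt_eq_div]; exact Rat.den_dvd m d
  have hden' : r.den ∣ d := by exact_mod_cast hden
  show r.den.Coprime ℓ
  exact Nat.Coprime.coprime_dvd_left hden' hdl

end Fermat.Agent.S28
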